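import Fermat.Prelude.Def_FLTPrelim_FreyPackage
import Fermat.Prelude.Def_FLTPrelim_Modularity
import Mathlib

/-!
# S12 / START : arithmetic of the integral Frey model `P.freyCurveInt`
-/

set_option autoImplicit false

namespace Fermat.Agent.S12.Start

open WeierstrassCurve

variable (P : FreyPackage)

theorem two_dvd_b : (2 : ℤ) ∣ P.b := (ZMod.intCast_zmod_eq_zero_iff_dvd P.b 2).1 P.hb2

theorem thirtytwo_dvd_b_pow : (32 : ℤ) ∣ P.b ^ P.p := by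
  have h1 : (2 : ℤ) ^ 5 ∣ P.b ^ 5 := pow_dvd_pow_of_dvd (two_dvd_b P) 5
  have h2 : P.b ^ 5 ∣ P.b ^ P.p := pow_dvd_pow _ P.hp5
  exact (by norm_num : (32 : ℤ) = 2 ^ 5) ▸ h1.trans h2

theorem four_dvd_a_pow_add_one : (4 : ℤ) ∣ P.a ^ P.p + 1 := by
  refine (ZMod.intCast_zmod_eq_zero_iff_dvd (P.a ^ P.p + 1) 4).1 ?_
  push_cast
  rw [P.ha4]
  have h3 : (3 : ZMod 4) = -1 := by decide
  rw [h3, P.hp_odd.neg_one_pow]
  ring

theorem four_dvd_a₂_num : (4 : ℤ) ∣ P.b ^ P.p - 1 - P.a ^ P.p := by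
  have h1 : (4 : ℤ) ∣ P.b ^ P.p := Dvd.dvd.trans (by norm_num) (thirtytwo_dvd_b_pow P)
  have h2 := four_dvd_a_pow_add_one P
  have : P.b ^ P.p - 1 - P.a ^ P.p = P.b ^ P.p - (P.a ^ P.p + 1) := by ring
  rw [this]
  exact dvd_sub h1 h2

theorem sixteen_dvd_a₄_num : (16 : ℤ) ∣ -(P.a ^ P.p) * (P.b ^ P.p) := by
  have h1 : (16 : ℤ) ∣ P.b ^ P.p := Dvd.dvd.trans (by norm_num) (thirtytwo_dvd_b_pow P)
  exact Dvd.dvd.mul_left h1 _

/-- `4 a₂ = b^p - 1 - a^p`. -/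
theorem freyInt_a₂ : 4 * P.freyCurveInt.a₂ = P.b ^ P.p - 1 - P.a ^ P.p :=
  Int.mul_ediv_cancel' (four_dvd_a₂_num P)

/-- `16 a₄ = - a^p b^p`. -/
theorem freyInt_a₄ : 16 * P.freyCurveInt.a₄ = -(P.a ^ P.p) * (P.b ^ P.p) :=
  Int.mul_ediv_cancel' (sixteen_dvd_a₄_num P)

theorem freyInt_a₁ : P.freyCurveInt.a₁ = 1 := rfl
theorem freyInt_a₃ : P.freyCurveInt.a₃ = 0 := rfl
theorem freyInt_a₆ : P.freyCurveInt.a₆ = 0 := rfl

/-- **(F1)** the integral Frey model is a model of the Frey curve (equality, no change of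
variables). -/
theorem freyInt_map : P.freyCurveInt.map (Int.castRingHom ℚ) = P.freyCurve := by
  have h2 : ((P.freyCurveInt.a₂ : ℤ) : ℚ) = ((P.b : ℚ) ^ P.p - 1 - (P.a : ℚ) ^ P.p) / 4 := by
    have := congrArg (Int.cast : ℤ → ℚ) (freyInt_a₂ P)
    push_cast at this
    linarith
  have h4 : ((P.freyCurveInt.a₄ : ℤ) : ℚ) = -((P.a : ℚ) ^ P.p) * ((P.b : ℚ) ^ P.p) / 16 := by
    have := congrArg (Int.cast : ℤ → ℚ) (freyInt_a₄ P)
    push_cast at this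
    linarith
  ext
  · simp [FreyPackage.freyCurve, freyInt_a₁]
  · simpa [FreyPackage.freyCurve] using h2
  · simp [FreyPackage.freyCurve, freyInt_a₃]
  · simpa [FreyPackage.freyCurve] using h4
  · simp [FreyPackage.freyCurve, freyInt_a₆]

theorem freyInt_isIntegralModelOf : P.freyCurveInt.IsIntegralModelOf P.freyCurve :=
  ⟨1, by rw [one_smul, freyInt_map]⟩

theorem freyInt_b₂ : P.freyCurveInt.b₂ = P.b ^ P.p - P.a ^ P.p := by
  have := freyInt_a₂ P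
  simp only [WeierstrassCurve.b₂, freyInt_a₁]
  linarith

theorem freyInt_b₄ : 8 * P.freyCurveInt.b₄ = -(P.a ^ P.p) * (P.b ^ P.p) := by
  have := freyInt_a₄ P
  simp only [WeierstrassCurve.b₄, freyInt_a₁, freyInt_a₃]
  linarith

theorem freyInt_b₆ : P.freyCurveInt.b₆ = 0 := by
  simp only [WeierstrassCurve.b₆, freyInt_a₃, freyInt_a₆]
  ring

/-- **(F2)** `c₄ = a^{2p} + a^p b^p + b^{2p}`. -/
theorem freyInt_c₄ :
    P.freyCurveInt.c₄ = (P.a ^ P.p) ^ 2 + P.a ^ P.p * P.b ^ P.p + (P.b ^ P.p) ^ 2 := by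
  have h4 := freyInt_b₄ P
  simp only [WeierstrassCurve.c₄, freyInt_b₂]
  linear_combination (-3 : ℤ) * h4

/-- **(F2)** `256 Δ = (a^p b^p c^p)^2`. -/
theorem freyInt_Δ : P.freyCurveInt.Δ * 256 = (P.a ^ P.p * P.b ^ P.p * P.c ^ P.p) ^ 2 := by
  have h2 := freyInt_a₂ P
  have h4 := freyInt_a₄ P
  rw [← P.hFLT]
  simp only [WeierstrassCurve.Δ, WeierstrassCurve.b₂, WeierstrassCurve.b₄,
    WeierstrassCurve.b₆, WeierstrassCurve.b₈, freyInt_a₁, freyInt_a₃, freyInt_a₆]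
  set A := P.a ^ P.p
  set B := P.b ^ P.p
  set u := P.freyCurveInt.a₂
  set w := P.freyCurveInt.a₄
  have e2 : (1 + 4 * u) ^ 2 - 64 * w = (A + B) ^ 2 := by
    have e1 : 1 + 4 * u = B - A := by linarith
    rw [e1]
    linear_combination (-4 : ℤ) * h4
  linear_combination (256 * w ^ 2) * e2 + (A + B) ^ 2 * (16 * w - A * B) * h4

theorem freyInt_Δ' : P.freyCurveInt.Δ * 256 = (P.a * P.b * P.c) ^ (2 * P.p) := by
  rw [freyInt_Δ, mul_comm 2 P.p, pow_mul, mul_pow (P.a * P.b), mul_pow P.a]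

theorem freyInt_Δ_ne_zero : P.freyCurveInt.Δ ≠ 0 := by
  intro h
  have := freyInt_Δ' P
  rw [h, zero_mul] at this
  exact pow_ne_zero _ P.habc0 this.symm

/-- **(F3)** the bad primes are the primes dividing `abc`. -/
theorem dvd_abc_of_dvd_Δ {l : ℕ} (hl : l.Prime) (h : (l : ℤ) ∣ P.freyCurveInt.Δ) :
    (l : ℤ) ∣ P.a * P.b * P.c := by
  have h1 : (l : ℤ) ∣ (P.a * P.b * P.c) ^ (2 * P.p) := by
    rw [← freyInt_Δ']
    exact Dvd.dvd.mul_right h _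
  exact (Nat.prime_iff_prime_int.1 hl).dvd_of_dvd_pow h1

theorem two_dvd_Δ : (2 : ℤ) ∣ P.freyCurveInt.Δ := by
  obtain ⟨k, hk⟩ := thirtytwo_dvd_b_pow P
  have h := freyInt_Δ P
  rw [hk] at h
  have h2 : P.freyCurveInt.Δ = 2 * (2 * (P.a ^ P.p * k * P.c ^ P.p) ^ 2) := by
    have : P.freyCurveInt.Δ * 256 = (2 * (2 * (P.a ^ P.p * k * P.c ^ P.p) ^ 2)) * 256 := by
      rw [h]; ring
    exact mul_right_cancel₀ (by norm_num) this
  exact ⟨_, h2⟩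

theorem dvd_Δ_of_dvd_abc {l : ℕ} (hl : l.Prime) (h : (l : ℤ) ∣ P.a * P.b * P.c) :
    (l : ℤ) ∣ P.freyCurveInt.Δ := by
  by_cases h2 : l = 2
  · subst h2
    exact_mod_cast two_dvd_Δ P
  · have h1 : (l : ℤ) ∣ P.freyCurveInt.Δ * 256 := by
      rw [freyInt_Δ']
      exact dvd_pow h (by have := P.hp5; omega)
    have hpr := Nat.prime_iff_prime_int.1 hl
    rcases hpr.dvd_or_dvd h1 with h3 | h3
    · exact h3
    · exfalso
      have h4 : (l : ℤ) ∣ 2 ^ 8 := by norm_num; exact h3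
      have h5 := hpr.dvd_of_dvd_pow h4
      have h6 : l ∣ 2 := by exact_mod_cast h5
      exact h2 ((Nat.prime_dvd_prime_iff_eq hl Nat.prime_two).1 h6)

theorem dvd_Δ_iff {l : ℕ} (hl : l.Prime) :
    (l : ℤ) ∣ P.freyCurveInt.Δ ↔ (l : ℤ) ∣ P.a * P.b * P.c :=
  ⟨dvd_abc_of_dvd_Δ P hl, dvd_Δ_of_dvd_abc P hl⟩

theorem not_dvd_both {x y : ℤ} (hxy : gcd x y = 1) {l : ℕ} (hl : l.Prime) (hx : (l : ℤ) ∣ x)
    (hy : (l : ℤ) ∣ y) : False := by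
  have h1 : (l : ℤ) ∣ gcd x y := dvd_gcd hx hy
  rw [hxy] at h1
  exact (Nat.prime_iff_prime_int.1 hl).not_dvd_one h1

/-- **(F3)** multiplicative reduction at the bad primes. -/
theorem not_dvd_c₄ {l : ℕ} (hl : l.Prime) (h : (l : ℤ) ∣ P.a * P.b * P.c) :
    ¬ (l : ℤ) ∣ P.freyCurveInt.c₄ := by
  have hpr := Nat.prime_iff_prime_int.1 hl
  have hp0 : P.p ≠ 0 := P.hp0
  intro hc4
  rw [freyInt_c₄] at hc4
  rcases hpr.dvd_or_dvd h with h1 | h1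
  · rcases hpr.dvd_or_dvd h1 with h2 | h2
    · -- `l ∣ a`
      have ha : (l : ℤ) ∣ P.a ^ P.p := dvd_pow h2 hp0
      have : (l : ℤ) ∣ (P.b ^ P.p) ^ 2 := by
        have e : (P.b ^ P.p) ^ 2 = ((P.a ^ P.p) ^ 2 + P.a ^ P.p * P.b ^ P.p + (P.b ^ P.p) ^ 2)
            - P.a ^ P.p * (P.a ^ P.p + P.b ^ P.p) := by ring
        rw [e]
        exact dvd_sub hc4 (Dvd.dvd.mul_right ha _)
      exact not_dvd_both P.hgcdab hl h2 (hpr.dvd_of_dvd_pow (hpr.dvd_of_dvd_pow this))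
    · -- `l ∣ b`
      have hb : (l : ℤ) ∣ P.b ^ P.p := dvd_pow h2 hp0
      have : (l : ℤ) ∣ (P.a ^ P.p) ^ 2 := by
        have e : (P.a ^ P.p) ^ 2 = ((P.a ^ P.p) ^ 2 + P.a ^ P.p * P.b ^ P.p + (P.b ^ P.p) ^ 2)
            - P.b ^ P.p * (P.a ^ P.p + P.b ^ P.p) := by ring
        rw [e]
        exact dvd_sub hc4 (Dvd.dvd.mul_right hb _)
      exact not_dvd_both P.hgcdab hl (hpr.dvd_of_dvd_pow (hpr.dvd_of_dvd_pow this)) h2
  · -- `l ∣ c`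
    have hc : (l : ℤ) ∣ P.c ^ P.p := dvd_pow h1 hp0
    have : (l : ℤ) ∣ (P.b ^ P.p) ^ 2 := by
      have e : (P.b ^ P.p) ^ 2 = ((P.a ^ P.p) ^ 2 + P.a ^ P.p * P.b ^ P.p + (P.b ^ P.p) ^ 2)
          - P.a ^ P.p * P.c ^ P.p := by rw [← P.hFLT]; ring
      rw [e]
      exact dvd_sub hc4 (Dvd.dvd.mul_left hc _)
    exact not_dvd_both P.hgcdbc hl (hpr.dvd_of_dvd_pow (hpr.dvd_of_dvd_pow this)) h1

theorem freyInt_semistable : P.freyCurveInt.IsSemistableModel :=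
  fun _ hl h => not_dvd_c₄ P hl (dvd_abc_of_dvd_Δ P hl h)

theorem isGoodPrimeFor_iff {l : ℕ} (hl : l.Prime) :
    P.freyCurveInt.IsGoodPrimeFor l ↔ ¬ (l : ℤ) ∣ P.a * P.b * P.c :=
  not_congr (dvd_Δ_iff P hl)

end Fermat.Agent.S12.Start
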