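import Mathlib

/-!
# S12 / START : abstract group theory
-/

set_option autoImplicit false

namespace Fermat.Agent.S12.Start

/-- `n • x ∈ ⟨Q⟩`, `p • x = 0`, `x ∉ ⟨Q⟩` ⟹ `p ∣ n`. -/
theorem dvd_of_zsmul_mem {G : Type*} [AddCommGroup G] {p : ℕ} (hp : p.Prime) {Q x : G}
    (hx : p • x = 0) (hxQ : x ∉ AddSubgroup.zmultiples Q) {n : ℤ}
    (hn : n • x ∈ AddSubgroup.zmultiples Q) : (p : ℤ) ∣ n := by
  by_contra hnd
  have hcop : IsCoprime n (p : ℤ) :=
    (((Nat.prime_iff_prime_int.1 hp).coprime_iff_not_dvd).2 hnd).symm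
  obtain ⟨u, v, huv⟩ := hcop
  apply hxQ
  have e : x = u • (n • x) + v • ((p : ℤ) • x) := by
    rw [smul_smul, smul_smul, ← add_smul, huv, one_smul]
  rw [e, natCast_zsmul, hx, smul_zero, add_zero]
  exact AddSubgroup.zsmul_mem _ hn u

/-- the eigenvalue on the line is `1` or the determinant. -/
theorem eig_of_quad {G : Type*} [AddCommGroup G] {p : ℕ} (hp : p.Prime) {Q x : G}
    (hQ : addOrderOf Q = p) (hx : p • x = 0) (hxQ : x ∉ AddSubgroup.zmultiples Q)
    (g : G →+ G) {k j t d : ℤ} (hgQ : g Q = k • Q) (hgx : g x = x + j • Q)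
    (hrQ : g (g Q) - t • g Q + d • Q = 0) (hrx : g (g x) - t • g x + d • x = 0) :
    (p : ℤ) ∣ 1 - t + d ∧ (g Q = Q ∨ g Q = d • Q) := by
  have h1 : (1 - t + d) • x = (-(j + j * k - t * j)) • Q := by
    rw [hgx, map_add, map_zsmul, hgx, hgQ] at hrx
    have e : (1 - t + d) • x - (-(j + j * k - t * j)) • Q
        = x + j • Q + j • k • Q - t • (x + j • Q) + d • x := by
      module
    rw [← sub_eq_zero, e, hrx]
  have hd1 : (p : ℤ) ∣ 1 - t + d := by
    refine dvd_of_zsmul_mem hp hx hxQ ?_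
    rw [h1]
    exact AddSubgroup.zsmul_mem _ (AddSubgroup.mem_zmultiples Q) _
  refine ⟨hd1, ?_⟩
  have h2 : (k * k - t * k + d) • Q = 0 := by
    rw [hgQ, map_zsmul, hgQ] at hrQ
    have e : (k * k - t * k + d) • Q = k • k • Q - t • k • Q + d • Q := by module
    rw [e, hrQ]
  have hd2 : (p : ℤ) ∣ k * k - t * k + d := by
    rw [← hQ]
    exact (addOrderOf_dvd_iff_zsmul_eq_zero).2 h2
  have hd3 : (p : ℤ) ∣ (k - 1) * (k - d) := by
    have e : (k - 1) * (k - d) = (k * k - t * k + d) - (1 - t + d) * k := by ring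
    rw [e]
    exact dvd_sub hd2 (Dvd.dvd.mul_right hd1 _)
  rcases (Nat.prime_iff_prime_int.1 hp).dvd_or_dvd hd3 with h | h
  · left
    have h0 : (k - 1) • Q = 0 := by
      rw [← hQ] at h
      exact (addOrderOf_dvd_iff_zsmul_eq_zero).1 h
    rw [sub_smul, one_smul, sub_eq_zero] at h0
    rw [hgQ, h0]
  · right
    have h0 : (k - d) • Q = 0 := by
      rw [← hQ] at h
      exact (addOrderOf_dvd_iff_zsmul_eq_zero).1 h
    rw [sub_smul, sub_eq_zero] at h0
    rw [hgQ, h0]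

/-- powers of a primitive root and multiples of a point of the same order. -/
theorem nsmul_eq_of_pow_eq {G K : Type*} [AddCommGroup G] [CommMonoid K] {p : ℕ} (hp : 0 < p)
    {Q : G} (hQ : p • Q = 0) {ζ : K} (hζ : IsPrimitiveRoot ζ p) {c d : ℕ}
    (h : ζ ^ c = ζ ^ d) : c • Q = d • Q := by
  have hfin : IsOfFinOrder ζ := isOfFinOrder_iff_pow_eq_one.2 ⟨p, hp, hζ.pow_eq_one⟩
  have h1 : c ≡ d [MOD p] := by
    have := hfin.pow_eq_pow_iff_modEq.1 h
    rwa [← hζ.eq_orderOf] at this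
  have h2 : ∀ n : ℕ, n • Q = (n % p) • Q := by
    intro n
    conv_lhs => rw [← Nat.div_add_mod n p, add_smul, mul_comm, mul_smul, hQ, smul_zero, zero_add]
  rw [h2 c, h2 d, h1]

end Fermat.Agent.S12.Start
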