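import Fermat.Agent.S12.Start.Quad
import Fermat.Agent.S12.Start.Grp
import Fermat.Agent.S13.FreyTorsion
import Fermat.Agent.Lib.Ell.CardRat
import Fermat.Prelude.Def_FLTPrelim_CofixedLine
import Fermat.Agent.S58.LocG.Main
import Fermat.Agent.S58.ThmC.Main
import Fermat.Agent.Lib.Frobenius

/-!
# S12 / START : a cofixed line is generated by a point on which `G_ℚ` acts by `1` or by `χ`
-/

set_option autoImplicit false

namespace Fermat.Agent.S12.Start

open Fermat.Agent.S58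
open WeierstrassCurve WeierstrassCurve.Affine WeierstrassCurve.Affine.Point

/-- unpacking a cofixed line: a generator `Q`, a point `x` outside. -/
theorem exists_gen (W : WeierstrassCurve ℤ) (hΔ : W.Δ ≠ 0) {p : ℕ} (hp : p.Prime)
    (h : HasGaloisStableCofixedLine (K := AlgebraicClosure ℚ) ℚ (W.map (Int.castRingHom ℚ)) p) :
    ∃ Q : EP W, addOrderOf Q = p ∧
      (∀ σ : GQ, σ • Q ∈ AddSubgroup.zmultiples Q) ∧
      (∀ (σ : GQ) (x : EP W), p • x = 0 → σ • x - x ∈ AddSubgroup.zmultiples Q) ∧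
      ∃ x : EP W, p • x = 0 ∧ x ∉ AddSubgroup.zmultiples Q := by
  have : Fact p.Prime := ⟨hp⟩
  obtain ⟨N, hstab, hbot, htop, hcof⟩ := h
  have hΔ' : (W.map (Int.castRingHom ℚ)).Δ ≠ 0 := by
    rw [WeierstrassCurve.map_Δ]
    simpa using hΔ
  have hcard := Lib.Ell.card_torsionBy_rat (W.map (Int.castRingHom ℚ)) hΔ' p hp.pos
  have hfin : Finite (Submodule.torsionBy ℤ ((W.map (Int.castRingHom ℚ))⁄Qb).Point p) :=
    Nat.finite_of_card_ne_zero (by rw [hcard]; exact pow_ne_zero _ hp.ne_zero)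
  obtain ⟨-, hN1, -, -⟩ := S13.line_finrank_card hcard.le N hbot htop
  obtain ⟨q, hqN, hq0⟩ := (Submodule.ne_bot_iff N).1 hbot
  have hgen : ∀ w ∈ N, (w : EP W) ∈ AddSubgroup.zmultiples (q : EP W) := by
    intro w hw
    obtain ⟨c, hc⟩ := (finrank_eq_one_iff_of_nonzero' (⟨q, hqN⟩ : N)
      (by intro h0; exact hq0 (congrArg Subtype.val h0))).1 hN1 ⟨w, hw⟩
    have h1 : c • q = w := congrArg Subtype.val hc
    refine ⟨(c.val : ℤ), ?_⟩
    have h2 : ((c.val : ℕ) : ZMod p) • q = w := by rw [ZMod.natCast_zmod_val, h1]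
    rw [Nat.cast_smul_eq_nsmul] at h2
    have h3 : c.val • (q : EP W) = w := congrArg Subtype.val h2
    show ((c.val : ℕ) : ℤ) • (q : EP W) = w
    rw [natCast_zsmul]
    exact h3
  have hmem : ∀ w : Submodule.torsionBy ℤ ((W.map (Int.castRingHom ℚ))⁄Qb).Point p,
      (w : EP W) ∈ AddSubgroup.zmultiples (q : EP W) → w ∈ N := by
    rintro w ⟨k, hk⟩
    have : w = k • q := Subtype.ext (by simpa using hk.symm)
    rw [this]
    exact zsmul_mem hqN k
  have hpq : p • (q : EP W) = 0 := by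
    have := q.2
    rwa [Submodule.mem_torsionBy_iff, natCast_zsmul] at this
  refine ⟨q, addOrderOf_eq_prime hpq (fun h0 => hq0 (Subtype.ext h0)), ?_, ?_, ?_⟩
  · intro σ
    exact hgen _ (hstab σ q hqN)
  · intro σ x hx
    exact hgen _ (hcof σ ⟨x, by rw [Submodule.mem_torsionBy_iff, natCast_zsmul]; exact hx⟩)
  · obtain ⟨x, -, hx⟩ := SetLike.exists_of_lt (lt_top_iff_ne_top.2 htop)
    refine ⟨x, ?_, fun hm => hx (hmem x hm)⟩
    have := x.2
    rwa [Submodule.mem_torsionBy_iff, natCast_zsmul] at this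

section

variable (W : WeierstrassCurve ℤ) (hΔ : W.Δ ≠ 0) {p : ℕ} (hp : p.Prime) {Q : EP W}
  (hQ : addOrderOf Q = p) (hst : ∀ σ : GQ, σ • Q ∈ AddSubgroup.zmultiples Q)
  (hcof : ∀ (σ : GQ) (x : EP W), p • x = 0 → σ • x - x ∈ AddSubgroup.zmultiples Q)
  {x : EP W} (hx : p • x = 0) (hxQ : x ∉ AddSubgroup.zmultiples Q)

include hp hQ hst hcof hx hxQ

/-- a quadratic relation for `σ` on `E[p]` forces `p ∣ 1 - t + d` and the eigenvalue on `Q`. -/
theorem eig_of_rel (σ : GQ) (t d : ℤ)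
    (hrel : ∀ P : EP W, p • P = 0 → σ • σ • P - t • σ • P + d • P = 0) :
    (p : ℤ) ∣ 1 - t + d ∧ (σ • Q = Q ∨ σ • Q = d • Q) := by
  obtain ⟨k, hk⟩ := hst σ
  obtain ⟨j, hj⟩ := hcof σ x hx
  have hpQ : p • Q = 0 := by rw [← hQ]; exact addOrderOf_nsmul_eq_zero Q
  exact eig_of_quad hp hQ hx hxQ (DistribSMul.toAddMonoidHom (EP W) σ) (k := k) (j := j)
    (t := t) (d := d) hk.symm (by
      have : σ • x = x + j • Q := by
        have hj' : j • Q = σ • x - x := hj
        rw [hj']; abel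
      exact this) (hrel Q hpQ) (hrel x hx)

include hΔ

theorem one_or_chi {ζ : Qb} (hζ : IsPrimitiveRoot ζ p) (σ : GQ) :
    σ • Q = Q ∨ ∀ c : ℕ, σ ζ = ζ ^ c → σ • Q = c • Q := by
  obtain ⟨t, d, hd, hrel⟩ := quad_rel W hΔ p hp.pos σ
  have hpQ : p • Q = 0 := by rw [← hQ]; exact addOrderOf_nsmul_eq_zero Q
  rcases (eig_of_rel W hp hQ hst hcof hx hxQ σ t d hrel).2 with h | h
  · exact Or.inl h
  · right
    intro c hc
    rw [h, natCast_zsmul]
    refine nsmul_eq_of_pow_eq hp.pos hpQ hζ ?_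
    rw [← hc, hd ζ hζ.pow_eq_one]

/-- **(S1)** if `Q` is not rational, `G_ℚ` acts on `Q` by the cyclotomic character. -/
theorem isCyc_of (hnr : ¬ ∀ σ : GQ, σ • Q = Q) (σ : GQ) (ζ : Qb) (c : ℕ)
    (hζ : IsPrimitiveRoot ζ p) (hc : σ ζ = ζ ^ c) : σ • Q = c • Q := by
  have : NeZero p := ⟨hp.ne_zero⟩
  by_contra hne
  have key := one_or_chi W hΔ hp hQ hst hcof hx hxQ hζ
  have hσ : σ • Q = Q := (key σ).resolve_right (fun h => hne (h c hc))
  obtain ⟨g, hg⟩ := not_forall.1 hnr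
  have hg' := (key g).resolve_left hg
  have hgp : (g ζ) ^ p = 1 := by rw [← map_pow, hζ.pow_eq_one, map_one]
  obtain ⟨e, -, he⟩ := hζ.eq_pow_of_pow_eq_one hgp
  have hgQ : g • Q = e • Q := hg' e he.symm
  have hgσ : (g * σ) ζ = ζ ^ (e * c) := by
    rw [AlgEquiv.mul_apply, hc, map_pow, ← he, ← pow_mul]
  have hgσQ : (g * σ) • Q = g • Q := by rw [mul_smul, hσ]
  rcases key (g * σ) with h | h
  · exact hg (hgσQ ▸ h)
  · have h1 := h _ hgσ
    rw [hgσQ] at h1
    -- `g • Q = (e * c) • Q = g • (c • Q)`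
    have h2 : g • (c • Q) = (e * c) • Q := by
      rw [smul_nsmul_comm' g c Q, hgQ, smul_smul, mul_comm]
    have h3 : g • Q = g • (c • Q) := by rw [h1, h2]
    have h4 : Q = c • Q := (MulAction.injective g) h3
    exact hne (by rw [hσ]; exact h4)

omit hΔ

/-- **point count**: `p` divides `#E(𝔽_ℓ)` for every good prime `ℓ ≠ p`. -/
theorem dvd_card_of_good {ℓ : ℕ} (hℓ : ℓ.Prime) (hgood : W.IsGoodPrimeFor ℓ) (hℓp : ℓ ≠ p) :
    p ∣ Nat.card (W.reductionMod ℓ).toAffine.Point := by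
  obtain ⟨A, σ, hA, hσ⟩ := Lib.Frobenius.exists_frobenius hℓ
  have hnd : ¬ ℓ ∣ p := fun h => hℓp ((Nat.prime_dvd_prime_iff_eq hℓ hp).1 h)
  have h1 := (eig_of_rel W hp hQ hst hcof hx hxQ σ (W.apOfModel ℓ) (ℓ : ℤ)
    (fun P hP => LocG.stmtFrob_of stmtThmC W ℓ hℓ hgood A hA σ hσ p hnd P hP)).1
  have h2 : 1 - W.apOfModel ℓ + (ℓ : ℤ) = (Nat.card (W.reductionMod ℓ).toAffine.Point : ℤ) := by
    simp only [WeierstrassCurve.apOfModel, WeierstrassCurve.traceOfFrobenius,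
      WeierstrassCurve.card, Nat.card_zmod]
    ring
  rw [h2] at h1
  exact_mod_cast h1

end

/-- coordinates of a point. -/
def ptPair {R : Type*} [CommRing R] {W' : Affine R} : W'.Point → Option (R × R)
  | .zero => none
  | .some x y _ => Option.some (x, y)

theorem ptPair_injective {R : Type*} [CommRing R] {W' : Affine R} :
    Function.Injective (ptPair (W' := W')) := by
  rintro (_ | ⟨x₁, y₁, h₁⟩) (_ | ⟨x₂, y₂, h₂⟩) h <;>
    simp only [ptPair, Option.some.injEq, Prod.mk.injEq, reduceCtorEq] at h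
  · rfl
  · obtain ⟨rfl, rfl⟩ := h; rfl

theorem card_point_three_le (W₀ : WeierstrassCurve (ZMod 3)) :
    Nat.card W₀.toAffine.Point ≤ 10 := by
  have h := Nat.card_le_card_of_injective _ (ptPair_injective (W' := W₀.toAffine))
  have h2 : Nat.card (Option (ZMod 3 × ZMod 3)) = 10 := by
    rw [Nat.card_eq_fintype_card]
    rfl
  omega

theorem card_point_pos {R : Type*} [CommRing R] [Finite R] (W₀ : WeierstrassCurve R) :
    0 < Nat.card W₀.toAffine.Point := by
  have : Finite W₀.toAffine.Point := Finite.of_injective _ ptPair_injective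
  exact Nat.card_pos

end Fermat.Agent.S12.Start
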