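import Fermat.Agent.S12.Contracts
import Fermat.Agent.S12.Start.Frey
import Fermat.Agent.S12.Start.Line
import Fermat.Agent.S13.ExportNoRat

/-!
# S12 / START : the contracts `StartOut` and `FreyArith`
-/

set_option autoImplicit false

namespace Fermat.Agent.S12.Start

open Fermat.Agent.S58
open WeierstrassCurve WeierstrassCurve.Affine WeierstrassCurve.Affine.Point

/-- **CONTRACT FREY**. -/
theorem freyArith : FreyArith where
  Δ_ne := freyInt_Δ_ne_zero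
  dvd_Δ := fun P _ hℓ => dvd_Δ_iff P hℓ
  c₄ := fun P _ hℓ h => not_dvd_c₄ P hℓ h

/-- the general statement behind `StartOut`. -/
theorem start_aux (W : WeierstrassCurve ℤ) (hΔ : W.Δ ≠ 0) (E : WeierstrassCurve ℚ)
    (hE : W.map (Int.castRingHom ℚ) = E) {p : ℕ} (hp : p.Prime)
    (hnr : ∀ Q : (E⁄Qb).Point, Q ≠ 0 → p • Q = 0 → (∀ σ : GQ, σ • Q = Q) → False)
    (h : HasGaloisStableCofixedLine (K := AlgebraicClosure ℚ) ℚ E p) :
    ∃ Q : EP W, addOrderOf Q = p ∧ IsCyc p Q ∧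
      (∀ (σ : GQ) (x : EP W), p • x = 0 → σ • x - x ∈ AddSubgroup.zmultiples Q) ∧
      (∃ x : EP W, p • x = 0 ∧ x ∉ AddSubgroup.zmultiples Q) ∧
      ∀ ℓ : ℕ, ℓ.Prime → W.IsGoodPrimeFor ℓ → ℓ ≠ p →
        p ∣ Nat.card (W.reductionMod ℓ).toAffine.Point := by
  subst hE
  obtain ⟨Q, hQ, hst, hcof, x, hx, hxQ⟩ := exists_gen W hΔ hp h
  have hQ0 : Q ≠ 0 := by
    rintro rfl
    rw [addOrderOf_zero] at hQ
    exact hp.one_lt.ne hQ
  have hpQ : p • Q = 0 := by rw [← hQ]; exact addOrderOf_nsmul_eq_zero Q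
  refine ⟨Q, hQ, ?_, hcof, ⟨x, hx, hxQ⟩, ?_⟩
  · exact isCyc_of W hΔ hp hQ hst hcof hx hxQ (fun hfix => hnr Q hQ0 hpQ hfix)
  · intro ℓ hℓ hgood hℓp
    exact dvd_card_of_good W hp hQ hst hcof hx hxQ hℓ hgood hℓp

/-- START, long form. -/
theorem start (P : FreyPackage) (hp : 11 ≤ P.p)
    (h : HasGaloisStableCofixedLine (K := AlgebraicClosure ℚ) ℚ P.freyCurve P.p) :
    ∃ Q : EP P.freyCurveInt, addOrderOf Q = P.p ∧ IsCyc P.p Q ∧
      (∀ (σ : GQ) (x : EP P.freyCurveInt), P.p • x = 0 →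
        σ • x - x ∈ AddSubgroup.zmultiples Q) ∧
      (∃ x : EP P.freyCurveInt, P.p • x = 0 ∧ x ∉ AddSubgroup.zmultiples Q) ∧
      (3 : ℤ) ∣ P.a * P.b * P.c := by
  obtain ⟨Q, hQ, hcyc, hcof, hx, hcard⟩ := start_aux P.freyCurveInt (freyInt_Δ_ne_zero P)
    P.freyCurve (freyInt_map P) P.pp (fun Q hQ0 hpQ hfix => S13.frey_no_rat P Q hQ0 hpQ hfix) h
  refine ⟨Q, hQ, hcyc, hcof, hx, ?_⟩
  by_contra h3
  have hgood : P.freyCurveInt.IsGoodPrimeFor 3 :=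
    (isGoodPrimeFor_iff P Nat.prime_three).2 (by exact_mod_cast h3)
  have h1 := hcard 3 Nat.prime_three hgood (by omega)
  have h2 := Nat.le_of_dvd (card_point_pos _) h1
  have h4 := card_point_three_le (P.freyCurveInt.reductionMod 3)
  omega

/-- **CONTRACT START**. -/
theorem startOut : StartOut := by
  intro P hp h
  obtain ⟨Q, hQ, hcyc, -, -, h3⟩ := start P (by omega) h
  exact ⟨Q, hQ, hcyc, h3⟩

end Fermat.Agent.S12.Start
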