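import Fermat.Agent.S58.Quad.Main
import Fermat.Agent.S58.Tors

/-!
# S12 / START : the quadratic relation for every `g ∈ G_ℚ` on `E[m]` (density argument)
-/

set_option autoImplicit false

namespace Fermat.Agent.S12.Start

open Fermat.Agent.S58

/-- every `g ∈ G_ℚ` satisfies on `E[m]` an integral quadratic relation whose constant term is the
cyclotomic character. -/
theorem quad_rel (W : WeierstrassCurve ℤ) (hΔ : W.Δ ≠ 0) (m : ℕ) (hm : 0 < m) (g : GQ) :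
    ∃ (t : ℤ) (d : ℕ), (∀ ζ : Qb, ζ ^ m = 1 → g ζ = ζ ^ d) ∧
      ∀ P : EP W, m • P = 0 → g • g • P - t • g • P + (d : ℤ) • P = 0 := by
  obtain ⟨L₂, hL₂, hfix⟩ := stmtTors.level W hΔ m hm
  obtain ⟨F, hFfd, -, h2, h3⟩ := exists_level L₂ L₂ hL₂ hL₂ m hm
  obtain ⟨S, hS⟩ := stmtFrobAE W hΔ m hm
  obtain ⟨ℓ, A, σ, b, hℓ, hℓB, hA, hσ, hgσ⟩ :=
    Fermat.Agent.Lib.FrobDensity.gal_frobeniusDensity F hFfd g (S ∪ m.primeFactors)
  simp only [Finset.mem_union, not_or] at hℓB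
  obtain ⟨hℓS, hℓm⟩ := hℓB
  have hℓm' : ¬ ℓ ∣ m := fun hd => hℓm (Nat.mem_primeFactors.mpr ⟨hℓ, hd, hm.ne'⟩)
  set h : GQ := (σ ^ b)⁻¹ * g with hh
  have hg : g = σ ^ b * h := by rw [hh, mul_inv_cancel_left]
  have hhF : ∀ x ∈ F, h x = x := by
    intro x hx
    have : (σ ^ b) (h x) = (σ ^ b) x := by
      rw [← AlgEquiv.mul_apply, ← hg, hgσ x hx]
    exact (σ ^ b).injective this
  have hgP : ∀ P : EP W, m • P = 0 → g • P = (σ ^ b) • P := by
    intro P hP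
    rw [hg, mul_smul, hfix h (fun x hx => hhF x (h2 hx)) P hP]
  have htor : ∀ (τ : GQ) (P : EP W), m • P = 0 → m • (τ • P) = 0 := by
    intro τ P hP
    rw [← smul_nsmul_comm' τ m P, hP, smul_zero]
  refine ⟨lucasV (W.apOfModel ℓ) ℓ b, ℓ ^ b, ?_, ?_⟩
  · intro ζ hζ
    rw [← hgσ ζ (h3 ζ hζ)]
    exact frobenius_pow_rootOfUnity hℓ hA hσ hℓm' b hζ
  · intro P hP
    rw [hgP (g • P) (htor g P hP), hgP P hP]
    have := lucas_smul (Γ := GQ) (G := EP W) (nsmulAddMonoidHom m : EP W →+ EP W).ker σ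
      (fun P hP => htor σ P hP) (W.apOfModel ℓ) ℓ
      (fun P hP => hS ℓ hℓ hℓS A hA σ hσ P hP) b P hP
    simpa using this

end Fermat.Agent.S12.Start
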